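import Fermat.Prelude.Def_GroupCohomology_ContinuousH1

/-!
# Level-constant cochains: basic closure properties

`r : G →* Gal(ℚ̄/ℚ)` supplies the notion of level. A representation is smooth when every
vector is fixed by the preimage of the fixing subgroup of some finite extension of `ℚ`.
-/

set_option autoImplicit false

universe u

open CategoryTheory groupCohomology

namespace Fermat.Agent.CFT.Cup

local notation "Γℚ" => (AlgebraicClosure ℚ ≃ₐ[ℚ] AlgebraicClosure ℚ)

/-- Every vector is fixed by an open subgroup of the given level structure. -/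
def IsSmooth {k G : Type u} [CommRing k] [Group G] (r : G →* Γℚ) (B : Rep k G) : Prop :=
  ∀ b : B, ∃ F : IntermediateField ℚ (AlgebraicClosure ℚ), FiniteDimensional ℚ F ∧
    ∀ g : G, r g ∈ F.fixingSubgroup → B.ρ g b = b

variable {G : Type u} [Group G] {r : G →* Γℚ}

lemma conj_mem_fixingSubgroup (F : IntermediateField ℚ (AlgebraicClosure ℚ)) [Normal ℚ F]
    {s : Γℚ} (hs : s ∈ F.fixingSubgroup) (σ : Γℚ) : σ⁻¹ * s * σ ∈ F.fixingSubgroup := by
  rw [IntermediateField.mem_fixingSubgroup_iff] at hs ⊢
  intro x hx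
  have hσx : σ x ∈ F := by
    have h := AlgEquiv.restrictNormal_commutes σ F ⟨x, hx⟩
    rw [IntermediateField.algebraMap_apply] at h
    exact h ▸ SetLike.coe_mem _
  show σ.symm (s (σ x)) = x
  rw [hs _ hσx, AlgEquiv.symm_apply_apply]

lemma exists_normal_level (F : IntermediateField ℚ (AlgebraicClosure ℚ)) [FiniteDimensional ℚ F] :
    ∃ F' : IntermediateField ℚ (AlgebraicClosure ℚ),
      FiniteDimensional ℚ F' ∧ Normal ℚ F' ∧ F'.fixingSubgroup ≤ F.fixingSubgroup :=
  have : IsAlgClosure ℚ (AlgebraicClosure ℚ) :=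
    ⟨inferInstance, AlgebraicClosure.isAlgebraic ℚ⟩
  have : Normal ℚ (AlgebraicClosure ℚ) := IsAlgClosure.normal ℚ (AlgebraicClosure ℚ)
  ⟨IntermediateField.normalClosure ℚ F (AlgebraicClosure ℚ),
    normalClosure.is_finiteDimensional ℚ F (AlgebraicClosure ℚ),
    normalClosure.normal ℚ F (AlgebraicClosure ℚ),
    IntermediateField.fixingSubgroup_antitone (IntermediateField.le_normalClosure F)⟩

/-- A function constant at some level has finite range. -/
lemma finite_range_of_isLevelConstant₁ {X : Type*} {f : G → X} (hf : IsLevelConstant₁ r f) :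
    (Set.range f).Finite := by
  obtain ⟨F, hF, h⟩ := hf
  have := hF
  obtain ⟨F', hF', hN, hle⟩ := exists_normal_level F
  have := hF'; have := hN
  have : Finite (F' →ₐ[ℚ] AlgebraicClosure ℚ) := Finite.of_fintype _
  let res : G → (F' →ₐ[ℚ] AlgebraicClosure ℚ) :=
    fun g => (r g).toAlgHom.comp F'.val
  have key : ∀ g g' : G, res g = res g' → f g = f g' := by
    intro g g' hgg
    have hs : r (g'⁻¹ * g) ∈ F'.fixingSubgroup := by
      rw [IntermediateField.mem_fixingSubgroup_iff]
      intro x hx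
      have : r g x = r g' x := congrArg (fun φ => φ ⟨x, hx⟩) hgg
      rw [map_mul, map_inv]
      show (r g').symm (r g x) = x
      rw [this, AlgEquiv.symm_apply_apply]
    have := h g' _ (hle hs)
    rwa [mul_inv_cancel_left] at this
  classical
  let φ : (F' →ₐ[ℚ] AlgebraicClosure ℚ) → X :=
    fun e => if he : ∃ g, res g = e then f he.choose else f 1
  refine (Set.finite_range φ).subset ?_
  rintro _ ⟨g, rfl⟩
  have he : ∃ g', res g' = res g := ⟨g, rfl⟩
  exact ⟨res g, by simp only [φ, dif_pos he]; exact key _ _ he.choose_spec⟩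

variable {k : Type u} [CommRing k]

/-- For smooth `B` one level fixes every value of a level-constant function. -/
lemma IsSmooth.exists_level_fix {B : Rep k G} (hB : IsSmooth r B) {f : G → B}
    (hf : IsLevelConstant₁ r f) :
    ∃ F : IntermediateField ℚ (AlgebraicClosure ℚ), FiniteDimensional ℚ F ∧
      ∀ s : G, r s ∈ F.fixingSubgroup → ∀ g, B.ρ s (f g) = f g := by
  have hfin := finite_range_of_isLevelConstant₁ hf
  have : Finite (Set.range f) := hfin.to_subtype
  choose F hF hfix using fun b : Set.range f => hB b.1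
  have : ∀ b, FiniteDimensional ℚ (F b) := hF
  refine ⟨⨆ b, F b, IntermediateField.finiteDimensional_iSup_of_finite, fun s hs g => ?_⟩
  exact hfix ⟨f g, g, rfl⟩ s (IntermediateField.fixingSubgroup_antitone (le_iSup F _) hs)

/-- The coboundary of a level-constant 1-cochain is level constant on smooth modules. -/
lemma IsSmooth.isLevelConstant₂_d₁₂ {B : Rep k G} (hB : IsSmooth r B) {x : G → B}
    (hx : IsLevelConstant₁ r x) : IsLevelConstant₂ r ((d₁₂ B).hom x) := by
  obtain ⟨F₀, hF₀, h₀⟩ := hx
  obtain ⟨F₁, hF₁, h₁⟩ := hB.exists_level_fix ⟨F₀, hF₀, h₀⟩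
  have := hF₀; have := hF₁
  obtain ⟨F, hF, hN, hle⟩ := exists_normal_level (F₀ ⊔ F₁)
  have := hN
  refine ⟨F, hF, fun g g' s s' hs hs' => ?_⟩
  have hle0 : F.fixingSubgroup ≤ F₀.fixingSubgroup :=
    hle.trans (IntermediateField.fixingSubgroup_antitone le_sup_left)
  have hle1 : F.fixingSubgroup ≤ F₁.fixingSubgroup :=
    hle.trans (IntermediateField.fixingSubgroup_antitone le_sup_right)
  have e : g * s * (g' * s') = g * g' * (g'⁻¹ * s * g' * s') := by group
  have hs'' : r (g'⁻¹ * s * g' * s') ∈ F₀.fixingSubgroup := by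
    rw [map_mul, map_mul, map_mul, map_inv]
    exact hle0 (mul_mem (conj_mem_fixingSubgroup F hs _) hs')
  simp only [d₁₂_hom_apply]
  rw [h₀ g s (hle0 hs), h₀ g' s' (hle0 hs'), e, h₀ (g * g') _ hs'', map_mul,
    Module.End.mul_apply, h₁ s (hle1 hs)]

/-- The coboundary of a point is level constant on smooth modules. -/
lemma IsSmooth.isLevelConstant₁_d₀₁ {B : Rep k G} (hB : IsSmooth r B) (b : B) :
    IsLevelConstant₁ r ((d₀₁ B).hom b) := by
  obtain ⟨F, hF, h⟩ := hB b
  refine ⟨F, hF, fun g s hs => ?_⟩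
  simp only [d₀₁_hom_apply]
  rw [map_mul, Module.End.mul_apply, h s hs]

end Fermat.Agent.CFT.Cup
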