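import Fermat.Agent.CFT.Cup.Level

/-!
# Cup products of inhomogeneous cochains in low degree
-/

set_option autoImplicit false

universe u

open CategoryTheory groupCohomology

noncomputable section

namespace Fermat.Agent.CFT.Cup

local notation "Γℚ" => (AlgebraicClosure ℚ ≃ₐ[ℚ] AlgebraicClosure ℚ)

variable {k G : Type u} [CommRing k] [Group G] {A B C : Rep k G}

/-- A `G`-equivariant bilinear pairing. -/
def IsEquivariant (β : A →ₗ[k] B →ₗ[k] C) : Prop :=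
  ∀ (g : G) (a : A) (b : B), β (A.ρ g a) (B.ρ g b) = C.ρ g (β a b)

variable (β : A →ₗ[k] B →ₗ[k] C)

def cup₀₁ : A →ₗ[k] (G → B) →ₗ[k] (G → C) :=
  LinearMap.mk₂ k (fun a f g => β a (f g))
    (fun a a' f => by ext; simp) (fun c a f => by ext; simp)
    (fun a f f' => by ext; simp) (fun c a f => by ext; simp)

def cup₁₀ : (G → A) →ₗ[k] B →ₗ[k] (G → C) :=
  LinearMap.mk₂ k (fun f b g => β (f g) (B.ρ g b))
    (fun a a' f => by ext; simp) (fun c a f => by ext; simp)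
    (fun a f f' => by ext; simp) (fun c a f => by ext; simp)

def cup₁₁ : (G → A) →ₗ[k] (G → B) →ₗ[k] (G × G → C) :=
  LinearMap.mk₂ k (fun f f' g => β (f g.1) (B.ρ g.1 (f' g.2)))
    (fun a a' f => by ext; simp) (fun c a f => by ext; simp)
    (fun a f f' => by ext; simp) (fun c a f => by ext; simp)

def cup₀₂ : A →ₗ[k] (G × G → B) →ₗ[k] (G × G → C) :=
  LinearMap.mk₂ k (fun a f g => β a (f g))
    (fun a a' f => by ext; simp) (fun c a f => by ext; simp)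
    (fun a f f' => by ext; simp) (fun c a f => by ext; simp)

def cup₂₀ : (G × G → A) →ₗ[k] B →ₗ[k] (G × G → C) :=
  LinearMap.mk₂ k (fun f b g => β (f g) (B.ρ (g.1 * g.2) b))
    (fun a a' f => by ext; simp) (fun c a f => by ext; simp)
    (fun a f f' => by ext; simp) (fun c a f => by ext; simp)

def cup₁₂ : (G → A) →ₗ[k] (G × G → B) →ₗ[k] (G × G × G → C) :=
  LinearMap.mk₂ k (fun f f' g => β (f g.1) (B.ρ g.1 (f' g.2)))
    (fun a a' f => by ext; simp) (fun c a f => by ext; simp)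
    (fun a f f' => by ext; simp) (fun c a f => by ext; simp)

def cup₂₁ : (G × G → A) →ₗ[k] (G → B) →ₗ[k] (G × G × G → C) :=
  LinearMap.mk₂ k (fun f f' g => β (f (g.1, g.2.1)) (B.ρ (g.1 * g.2.1) (f' g.2.2)))
    (fun a a' f => by ext; simp) (fun c a f => by ext; simp)
    (fun a f f' => by ext; simp) (fun c a f => by ext; simp)

@[simp] lemma cup₀₁_apply (a : A) (f : G → B) (g : G) : cup₀₁ β a f g = β a (f g) := rfl
@[simp] lemma cup₁₀_apply (f : G → A) (b : B) (g : G) :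
    cup₁₀ β f b g = β (f g) (B.ρ g b) := rfl
@[simp] lemma cup₁₁_apply (f : G → A) (f' : G → B) (g : G × G) :
    cup₁₁ β f f' g = β (f g.1) (B.ρ g.1 (f' g.2)) := rfl
@[simp] lemma cup₀₂_apply (a : A) (f : G × G → B) (g : G × G) :
    cup₀₂ β a f g = β a (f g) := rfl
@[simp] lemma cup₂₀_apply (f : G × G → A) (b : B) (g : G × G) :
    cup₂₀ β f b g = β (f g) (B.ρ (g.1 * g.2) b) := rfl
@[simp] lemma cup₁₂_apply (f : G → A) (f' : G × G → B) (g : G × G × G) :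
    cup₁₂ β f f' g = β (f g.1) (B.ρ g.1 (f' g.2)) := rfl
@[simp] lemma cup₂₁_apply (f : G × G → A) (f' : G → B) (g : G × G × G) :
    cup₂₁ β f f' g = β (f (g.1, g.2.1)) (B.ρ (g.1 * g.2.1) (f' g.2.2)) := rfl

variable {β} (hβ : IsEquivariant β)

include hβ

/-- `d (f ∪ f') = df ∪ f' - f ∪ df'` in bidegree (1,1). -/
lemma d₂₃_cup₁₁ (f : G → A) (f' : G → B) :
    (d₂₃ C).hom (cup₁₁ β f f') =
      cup₂₁ β ((d₁₂ A).hom f) f' - cup₁₂ β f ((d₁₂ B).hom f') := by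
  ext ⟨a, b, c⟩
  simp only [d₂₃_hom_apply, d₁₂_hom_apply, cup₁₁_apply, cup₁₂_apply, cup₂₁_apply, Pi.sub_apply,
    map_add, map_sub, LinearMap.add_apply, LinearMap.sub_apply, map_mul, Module.End.mul_apply]
  rw [← hβ]
  abel

/-- `d (a ∪ f) = da ∪ f + a ∪ df` in bidegree (0,1). -/
lemma d₁₂_cup₀₁ (a : A) (f : G → B) :
    (d₁₂ C).hom (cup₀₁ β a f) = cup₁₁ β ((d₀₁ A).hom a) f + cup₀₂ β a ((d₁₂ B).hom f) := by
  ext ⟨g, h⟩
  simp only [d₁₂_hom_apply, d₀₁_hom_apply, cup₀₁_apply, cup₁₁_apply, cup₀₂_apply, Pi.add_apply,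
    map_add, map_sub, LinearMap.sub_apply]
  rw [← hβ]
  abel

/-- `d (f ∪ b) = df ∪ b - f ∪ db` in bidegree (1,0). -/
lemma d₁₂_cup₁₀ (f : G → A) (b : B) :
    (d₁₂ C).hom (cup₁₀ β f b) = cup₂₀ β ((d₁₂ A).hom f) b - cup₁₁ β f ((d₀₁ B).hom b) := by
  ext ⟨g, h⟩
  simp only [d₁₂_hom_apply, d₀₁_hom_apply, cup₁₀_apply, cup₁₁_apply, cup₂₀_apply, Pi.sub_apply,
    map_add, map_sub, LinearMap.add_apply, LinearMap.sub_apply, map_mul, Module.End.mul_apply]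
  rw [← hβ]
  abel

lemma cup₁₁_mem_cocycles₂ {f : G → A} {f' : G → B} (hf : f ∈ cocycles₁ A)
    (hf' : f' ∈ cocycles₁ B) : cup₁₁ β f f' ∈ cocycles₂ C := by
  have h := d₂₃_cup₁₁ hβ f f'
  rw [show (d₁₂ A).hom f = 0 from hf, show (d₁₂ B).hom f' = 0 from hf'] at h
  refine LinearMap.mem_ker.2 ?_
  simpa using h

lemma cup₁₁_d₀₁_left (a : A) {f : G → B} (hf : f ∈ cocycles₁ B) :
    cup₁₁ β ((d₀₁ A).hom a) f = (d₁₂ C).hom (cup₀₁ β a f) := by
  rw [d₁₂_cup₀₁ hβ, show (d₁₂ B).hom f = 0 from hf, map_zero, add_zero]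

lemma cup₁₁_d₀₁_right {f : G → A} (hf : f ∈ cocycles₁ A) (b : B) :
    cup₁₁ β f ((d₀₁ B).hom b) = -(d₁₂ C).hom (cup₁₀ β f b) := by
  rw [d₁₂_cup₁₀ hβ, show (d₁₂ A).hom f = 0 from hf, map_zero, LinearMap.zero_apply, zero_sub,
    neg_neg]

omit hβ

section levels

variable {r : G →* Γℚ} (β)

lemma isLevelConstant₂_cup₁₁ (hB : IsSmooth r B) {f : G → A} {f' : G → B}
    (hf : IsLevelConstant₁ r f) (hf' : IsLevelConstant₁ r f') :
    IsLevelConstant₂ r (cup₁₁ β f f') := by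
  obtain ⟨F₀, hF₀, h₀⟩ := hf
  obtain ⟨F₁, hF₁, h₁⟩ := hf'
  obtain ⟨F₂, hF₂, h₂⟩ := hB.exists_level_fix ⟨F₁, hF₁, h₁⟩
  have := hF₀; have := hF₁; have := hF₂
  refine ⟨F₀ ⊔ F₁ ⊔ F₂, inferInstance, fun g g' s s' hs hs' => ?_⟩
  simp only [cup₁₁_apply]
  rw [h₀ g s (IntermediateField.fixingSubgroup_antitone (le_sup_left.trans le_sup_left) hs),
    h₁ g' s' (IntermediateField.fixingSubgroup_antitone (le_sup_right.trans le_sup_left) hs'),
    map_mul, Module.End.mul_apply,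
    h₂ s (IntermediateField.fixingSubgroup_antitone le_sup_right hs)]

lemma isLevelConstant₁_cup₀₁ (a : A) {f : G → B} (hf : IsLevelConstant₁ r f) :
    IsLevelConstant₁ r (cup₀₁ β a f) := hf.comp (β a)

lemma isLevelConstant₁_cup₁₀ (hB : IsSmooth r B) {f : G → A} (hf : IsLevelConstant₁ r f) (b : B) :
    IsLevelConstant₁ r (cup₁₀ β f b) := by
  obtain ⟨F₀, hF₀, h₀⟩ := hf
  obtain ⟨F₁, hF₁, h₁⟩ := hB b
  have := hF₀; have := hF₁
  refine ⟨F₀ ⊔ F₁, inferInstance, fun g s hs => ?_⟩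
  simp only [cup₁₀_apply]
  rw [h₀ g s (IntermediateField.fixingSubgroup_antitone le_sup_left hs), map_mul,
    Module.End.mul_apply, h₁ s (IntermediateField.fixingSubgroup_antitone le_sup_right hs)]

end levels

end Fermat.Agent.CFT.Cup
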