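import Fermat.Agent.CFT.Cup.Basic

/-!
# The cup product `H¹ × H¹ → H²` on continuous cohomology
-/

set_option autoImplicit false

universe u

open CategoryTheory groupCohomology

noncomputable section

namespace Fermat.Agent.CFT.Cup

local notation "Γℚ" => (AlgebraicClosure ℚ ≃ₐ[ℚ] AlgebraicClosure ℚ)

variable {k G : Type u} [CommRing k] [Group G] {r : G →* Γℚ} {A B C : Rep.{u} k G}

/-- Continuous `H¹` as a quotient of level-constant cocycles. -/
def continuousH1π (A : Rep k G) : ↥(levelCocycles₁ r A) →ₗ[k] ↥(continuousH1 r A) :=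
  LinearMap.codRestrict _ ((H1π A).hom ∘ₗ (levelCocycles₁ r A).subtype)
    fun c => H1π_mem_continuousH1 r A c.2

@[simp] lemma coe_continuousH1π (c : ↥(levelCocycles₁ r A)) :
    (continuousH1π A c : H1 A) = (H1π A).hom c.1 := rfl

lemma continuousH1π_surjective : Function.Surjective (continuousH1π (r := r) A) := by
  rintro ⟨x, hx⟩
  obtain ⟨c, hc, rfl⟩ := (mem_continuousH1_iff r A x).1 hx
  exact ⟨⟨c, hc⟩, rfl⟩

variable {β : A →ₗ[k] B →ₗ[k] C} (hβ : IsEquivariant β) (hB : IsSmooth r B)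

/-- Cup product of level-constant cocycles, as a continuous `H²` class. -/
def cupLevel : ↥(levelCocycles₁ r A) →ₗ[k] ↥(levelCocycles₁ r B) →ₗ[k] continuousH2 r C :=
  LinearMap.mk₂ k
    (fun f f' => continuousH2π r C ⟨cup₁₁ β f.1.1 f'.1.1,
      cup₁₁_mem_cocycles₂ hβ f.1.2 f'.1.2, isLevelConstant₂_cup₁₁ β hB f.2 f'.2⟩)
    (fun a a' f => (congrArg _ (Subtype.ext (LinearMap.map_add₂ (cup₁₁ β) _ _ _))).trans
      (map_add _ _ _))
    (fun c a f => (congrArg _ (Subtype.ext (LinearMap.map_smul₂ (cup₁₁ β) _ _ _))).trans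
      (map_smul _ _ _))
    (fun a f f' => (congrArg _ (Subtype.ext ((cup₁₁ β _).map_add _ _))).trans (map_add _ _ _))
    (fun c a f => (congrArg _ (Subtype.ext ((cup₁₁ β _).map_smul _ _))).trans (map_smul _ _ _))

lemma cupLevel_apply (f : ↥(levelCocycles₁ r A)) (f' : ↥(levelCocycles₁ r B)) :
    cupLevel hβ hB f f' = continuousH2π r C ⟨cup₁₁ β f.1.1 f'.1.1,
      cup₁₁_mem_cocycles₂ hβ f.1.2 f'.1.2, isLevelConstant₂_cup₁₁ β hB f.2 f'.2⟩ := rfl

lemma cupLevel_eq_zero_of_left {f : ↥(levelCocycles₁ r A)} (hf : continuousH1π A f = 0)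
    (f' : ↥(levelCocycles₁ r B)) : cupLevel hβ hB f f' = 0 := by
  have h : (H1π A).hom f.1 = 0 := congrArg Subtype.val hf
  obtain ⟨a, ha⟩ := (H1π_eq_zero_iff f.1).1 h
  rw [cupLevel_apply, continuousH2π_eq_zero_iff, mem_levelCoboundaries₂_iff]
  refine ⟨cup₀₁ β a f'.1, isLevelConstant₁_cup₀₁ β a f'.2, ?_⟩
  exact (cup₁₁_d₀₁_left hβ a f'.1.2).symm.trans (congrArg (fun z => cup₁₁ β z f'.1.1) ha)

lemma cupLevel_eq_zero_of_right (f : ↥(levelCocycles₁ r A)) {f' : ↥(levelCocycles₁ r B)}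
    (hf' : continuousH1π B f' = 0) : cupLevel hβ hB f f' = 0 := by
  have h : (H1π B).hom f'.1 = 0 := congrArg Subtype.val hf'
  obtain ⟨b, hb⟩ := (H1π_eq_zero_iff f'.1).1 h
  rw [cupLevel_apply, continuousH2π_eq_zero_iff, mem_levelCoboundaries₂_iff]
  refine ⟨-cup₁₀ β f.1 b, (isLevelConstant₁_cup₁₀ β hB f.2 b).comp Neg.neg, ?_⟩
  exact ((map_neg _ _).trans (cup₁₁_d₀₁_right hβ f.1.2 b).symm).trans
    (congrArg (cup₁₁ β f.1.1) hb)

lemma cupLevel_congr {f g : ↥(levelCocycles₁ r A)} {f' g' : ↥(levelCocycles₁ r B)}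
    (h : continuousH1π A f = continuousH1π A g) (h' : continuousH1π B f' = continuousH1π B g') :
    cupLevel hβ hB f f' = cupLevel hβ hB g g' := by
  have e₁ := cupLevel_eq_zero_of_left hβ hB (f := f - g)
    (((continuousH1π A).map_sub f g).trans (sub_eq_zero.2 h)) f'
  have e₂ := cupLevel_eq_zero_of_right hβ hB g (f' := f' - g')
    (((continuousH1π B).map_sub f' g').trans (sub_eq_zero.2 h'))
  have e₁' := ((cupLevel hβ hB).map_sub₂ f g f').symm.trans e₁
  have e₂' := ((cupLevel hβ hB g).map_sub f' g').symm.trans e₂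
  exact (sub_eq_zero.1 e₁').trans (sub_eq_zero.1 e₂')

/-- The cup product on continuous `H¹`. -/
def cupH1 : ↥(continuousH1 r A) →ₗ[k] ↥(continuousH1 r B) →ₗ[k] continuousH2 r C :=
  LinearMap.mk₂ k
    (fun x y => cupLevel hβ hB (Function.surjInv continuousH1π_surjective x)
      (Function.surjInv continuousH1π_surjective y))
    (fun x x' y => by
      rw [← LinearMap.add_apply, ← map_add]
      exact cupLevel_congr hβ hB (by simp [Function.surjInv_eq continuousH1π_surjective]) rfl)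
    (fun c x y => by
      rw [← LinearMap.smul_apply, ← map_smul]
      exact cupLevel_congr hβ hB (by simp [Function.surjInv_eq continuousH1π_surjective]) rfl)
    (fun x y y' => by
      rw [← map_add]
      exact cupLevel_congr hβ hB rfl (by simp [Function.surjInv_eq continuousH1π_surjective]))
    (fun c x y => by
      rw [← map_smul]
      exact cupLevel_congr hβ hB rfl (by simp [Function.surjInv_eq continuousH1π_surjective]))

@[simp] lemma cupH1_π (f : ↥(levelCocycles₁ r A)) (f' : ↥(levelCocycles₁ r B)) :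
    cupH1 hβ hB (continuousH1π A f) (continuousH1π B f') = cupLevel hβ hB f f' :=
  cupLevel_congr hβ hB (Function.surjInv_eq _ _) (Function.surjInv_eq _ _)

end Fermat.Agent.CFT.Cup
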