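import Fermat.Prelude.Def_ExtEndgame_ProductionDatum
import Fermat.Agent.CFT.Cup.H1

/-!
# The evaluation pairing `A^∨(χ) × A → k(χ)` and naturality of cup products
-/

set_option autoImplicit false

universe u

open CategoryTheory groupCohomology ExtCitation

noncomputable section

namespace Fermat.Agent.CFT.Cup

local notation "Γℚ" => (AlgebraicClosure ℚ ≃ₐ[ℚ] AlgebraicClosure ℚ)

variable {k G : Type u} [Field k] [Group G] (A : Rep.{u} k G) (χ : G →* kˣ)

/-- Evaluation, as a pairing into the character module. -/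
def evalPairing : A.dualTwist χ →ₗ[k] A →ₗ[k] ofChar (k := k) χ :=
  (LinearMap.id : Module.Dual k A →ₗ[k] A →ₗ[k] k)

lemma evalPairing_isEquivariant : IsEquivariant (evalPairing A χ) := by
  intro g φ a
  show ((χ g : k) • ((φ : Module.Dual k A) ∘ₗ A.ρ g⁻¹)) (A.ρ g a) = (χ g : k) * φ a
  simp [← Module.End.mul_apply, ← map_mul]

variable {A χ}

lemma isSmooth_dualTwist {r : G →* Γℚ} [FiniteDimensional k A] (hA : IsSmooth r A)
    (hχ : ∃ F : IntermediateField ℚ (AlgebraicClosure ℚ), FiniteDimensional ℚ F ∧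
      ∀ g : G, r g ∈ F.fixingSubgroup → χ g = 1) :
    IsSmooth r (A.dualTwist χ) := by
  intro φ
  obtain ⟨F₀, hF₀, h₀⟩ := hχ
  let b := Module.finBasis k A
  choose F hF hfix using fun i => hA (b i)
  have := hF; have := hF₀
  refine ⟨F₀ ⊔ ⨆ i, F i, inferInstance, fun g hg => ?_⟩
  have hA1 : A.ρ g = 1 := b.ext fun i => hfix i g
    (IntermediateField.fixingSubgroup_antitone ((le_iSup F i).trans le_sup_right) hg)
  have hA2 : A.ρ g⁻¹ = 1 := by
    have h := map_mul A.ρ g⁻¹ g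
    rwa [inv_mul_cancel, map_one, hA1, mul_one, eq_comm] at h
  rw [Rep.dualTwist_ρ_apply, h₀ g (IntermediateField.fixingSubgroup_antitone le_sup_left hg),
    hA2]
  simp [Module.End.one_eq_id]

section naturality

variable {k G H : Type u} [CommRing k] [Group G] [Group H] (f : G →* H)
  {A B C : Rep.{u} k H} {A' B' C' : Rep.{u} k G} {β : A →ₗ[k] B →ₗ[k] C}
  {β' : A' →ₗ[k] B' →ₗ[k] C'} (φ : A →ₗ[k] A') (ψ : B →ₗ[k] B') (θ : C →ₗ[k] C')

lemma cochainsPullPush₂_cup₁₁
    (hψ : ∀ (g : G) (b : B), ψ (B.ρ (f g) b) = B'.ρ g (ψ b))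
    (h : ∀ a b, θ (β a b) = β' (φ a) (ψ b)) (x : H → A) (y : H → B) :
    cochainsPullPush₂ f θ (cup₁₁ β x y) =
      cup₁₁ β' (cochainsPullPush₁ f φ x) (cochainsPullPush₁ f ψ y) := by
  ext g
  simp [h, hψ]

end naturality

end Fermat.Agent.CFT.Cup
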